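import Fermat.Agent.LT.Top.Iface
import Fermat.Agent.LT.Geo.EThree
import Fermat.Agent.LT.Geo.MkGeo
import Fermat.Agent.LT.Geo.Ops
import Fermat.Agent.LT.CTree.Val

/-!
# LT: the interfaces on the side of `L` : pieces I, H and G

* `IsLev R M D` : `D` has level `HT w M` at the places `w` of `L` which ramify in `R.N`, full level
  elsewhere (`M` is a depth parameter, the same in `PiL` and `UniqL`).
* `SType D M φ` : `φ` is in the image of the shell projector at the places with `D.n w ≠ 0`.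
* `PiL R` (piece I) : existence of `π_L`; `UniqL R` (piece H, (R2) and (R2')) : its uniqueness.
* `DescGeo` (piece G): the comparison of trace formulas, for an arbitrary comparison datum.
(helper23)
-/

set_option autoImplicit false

open NumberField IsDedekindDomain Matrix
open Fermat.LT Fermat.Agent.LT.B Fermat.Agent.LT.D Fermat.Agent.LT.K

namespace Fermat.Agent.LT.Top

section ops

variable {F : Type} [Field F] [NumberField F]

/-- `φ` is fixed by the shell projectors `ew w M` at the places with `D.n w ≠ 0`. -/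
def SType (D : Datum F) (M : ℕ) (φ : X D → ℂ) : Prop :=
  ∀ w, D.n w ≠ 0 → opX w (ew w M) φ = φ

end ops

variable (R : Octa)

/-- level `HT w M` at the places of `L` which ramify in `R.N`, full level elsewhere -/
structure IsLev (M : ℕ) (D : Datum R.L) : Prop where
  ram : ∀ w, (R.ab w).inertia Q8 ≠ ⊥ → D.H w = HT w M ∧ D.n w = max M 1
  unr : ∀ w, (R.ab w).inertia Q8 = ⊥ → D.n w = 0

/-- **Output of I.** The depth `M` can be taken arbitrarily large (if there are ramified places). -/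
def PiL : Prop :=
  ∃ M : ℕ, ∀ D : Datum R.L, IsLev R M D →
    ∃ φ : X D → ℂ, EForm D (fun w => (R.lam w : ℝ)) φ ∧ SType D M φ

/-- **Output of H on `L`** ((R2), (R2')). -/
def UniqL : Prop :=
  ∀ (M : ℕ) (C : Cub R.K R.L) (D : Datum R.L), IsLev R M D →
    ∀ φ₀ : X D → ℂ, EForm D (fun w => (R.lam w : ℝ)) φ₀ → SType D M φ₀ →
    ∀ (lam : Pl R.L → ℝ) (φ : X D → ℂ), EForm D lam φ → SType D M φ →
      (∀ w, pl C w ≠ w → D.n w = 0 → lam w = R.lam w) → ∃ c : ℂ, φ = c • φ₀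

section geo

variable {K L : Type} [Field K] [NumberField K] [Field L] [NumberField L] [Algebra K L]

/-- Existence of killer elements: `ϖ ∈ L^*` is a unit outside a finite set `S` of good places which
are split over `K`, `ϖ ≡ 1` at given bad places, and the killer does not vanish at the eigensystem
`lam` (`lv w` is the valuation). -/
def KillL (C : Cub K L) (D : Datum L) (lam : Pl L → ℝ) : Prop :=
  ∀ n : Pl L → ℕ, {w | n w ≠ 0}.Finite → (∀ w, n w ≠ 0 → D.n w ≠ 0 ∨ pl C w = w) →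
    ∃ (ϖ : Lˣ) (S : Finset (Pl L)),
      (∀ w ∈ S, D.n w = 0 ∧ pl C w ≠ w ∧ (lam w = 0 ∨ lam w = 2 ∨ lam w = -2)) ∧
      (∀ w ∉ S, av w (ϖ : L) = 1) ∧
      (∀ w, n w ≠ 0 → av w ((ϖ : L) - 1) ≤ (qv w)⁻¹ ^ (n w)) ∧
      (∀ T : Finset (Pl L), (∀ w, w ∈ T ↔ w ∈ S ∧ lam w = 0) →
        Odd (∑ w ∈ T, CTree.lv w (ϖ : L)))

/-- The hypotheses of the comparison of trace formulas. -/
structure DescHyp {C : Cub K L} (G : GeoDatum C) (M : ℕ) (lam : Pl L → ℝ)
    (φ : X G.DL.toDatum → ℂ) : Prop where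
  zeta : ∃ ζ : K, IsPrimitiveRoot ζ 3
  /-- the level on `L` : full, or `HT w M` at split places -/
  lev : ∀ w, G.DL.n w = 0 ∨ (G.DL.H w = HT w M ∧ pl C w ≠ w)
  n_pl : ∀ w, G.DL.n (pl C w) = G.DL.n w
  /-- the level on `K` -/
  n_split : ∀ v, Split C v (G.up v) → G.U.n v = G.DL.n (G.up v)
  n_inert : ∀ v, Inert C v (G.up v) → G.U.n v = 0
  n_ram : ∀ v, Ram C v (G.up v) → G.U.n v ≠ 0
  form : EForm G.DL.toDatum lam φ
  styp : SType G.DL.toDatum M φ
  uniq : ∀ (lam' : Pl L → ℝ) (φ' : X G.DL.toDatum → ℂ), EForm G.DL.toDatum lam' φ' →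
    SType G.DL.toDatum M φ' → (∀ w, pl C w ≠ w → G.DL.n w = 0 → lam' w = lam w) →
    ∃ c : ℂ, φ' = c • φ
  lam_pl : ∀ w, G.DL.n w = 0 → lam (pl C w) = lam w
  lam_ram : ∀ v, Ram C v (G.up v) → lam (G.up v) ≠ 0
  kill : KillL C G.DL.toDatum lam
  big : ∀ B : ℝ, ∃ u, Split C u (G.up u) ∧ G.DL.n (G.up u) = 0 ∧ B < qv u ∧ lam (G.up u) = 2

/-- **Output of G.** -/
def DescGeo : Prop :=
  ∀ (K L : Type) [Field K] [NumberField K] [Field L] [NumberField L] [Algebra K L] (C : Cub K L)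
    (G : GeoDatum C) (M : ℕ) (lam : Pl L → ℝ) (φ : X G.DL.toDatum → ℂ), DescHyp G M lam φ →
    ∃ (lamK : Pl K → ℝ) (Φ : X G.DK → ℂ), EForm G.DK lamK Φ ∧
      ∀ v, Split C v (G.up v) → G.DL.n (G.up v) = 0 → lamK v = lam (G.up v)

end geo

end Fermat.Agent.LT.Top
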