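import Fermat.Agent.LT.Top.IfaceL
import Fermat.Agent.LT.Geo.Places
import Fermat.Agent.LT.CTree.KillGal

/-!
# LT: the killer element and the auxiliary primes for an octahedral representation

* `killL_octa` : `KillL C D R.lam` for every `D : Datum R.L`.
* `exists_big` : infinitely many places `w` of `L`, split over `K`, with `λ_w = 2`.
* `big_octa` : `DescHyp.big` (level nontrivial at the ramified places of `N/L`).
(helper84)
-/

set_option autoImplicit false

open NumberField IsDedekindDomain Matrix Filter Topology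
open Fermat.LT Fermat.Agent.LT.B Fermat.Agent.LT.D Fermat.Agent.LT.K Fermat.Agent.CFT
open Fermat.Agent.LT.CTree

namespace Fermat.Agent.LT.Top

section general

variable {K L : Type} [Field K] [NumberField K] [Field L] [NumberField L] [Algebra K L]

/-- only finitely many fixed places have prime norm -/
theorem finite_fix_prime (C : Cub K L) :
    {w : Pl L | pl C w = w ∧ (Ideal.absNorm w.asIdeal).Prime}.Finite := by
  have h1 : ∀ w : Pl L, pl C w = w → (Ideal.absNorm w.asIdeal).Prime →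
      Ram C (SUH.below K w) w := by
    intro w hw hp
    rcases trichotomy C (above_below (K := K) w) with h | h | h
    · exact absurd hw h.ne
    · exfalso
      have h2 := h.q_eq
      rw [qv, qv] at h2
      have h3 : Ideal.absNorm w.asIdeal = (Ideal.absNorm (SUH.below K w).asIdeal) ^ 3 := by
        exact_mod_cast h2
      rw [h3] at hp
      exact (Nat.Prime.not_prime_pow (by norm_num : 2 ≤ 3)) hp
    · exact h
  refine Set.Finite.of_injOn (f := fun w : Pl L => SUH.below K w)
    (t := {v : Pl K | ∃ w, Ram C v w}) (fun w hw => ⟨w, h1 w hw.1 hw.2⟩) ?_ (ram_finite C)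
  intro w hw w' hw' h
  have h2 := h1 w hw.1 hw.2
  have h3 := h1 w' hw'.1 hw'.2
  have h4 : SUH.below K w = SUH.below K w' := h
  rw [← h4] at h3
  exact (eq_of_fix C h2.above h3.above h2.fix).symm

end general

section octa

variable (R : Octa)

theorem normal_sub : (Z2.subgroupOf Q8).Normal := by
  refine ⟨fun n hn g => ?_⟩
  rw [Subgroup.mem_subgroupOf, mem_Z2] at hn ⊢
  push_cast
  rcases hn with h | h
  · left; rw [h, mul_one, mul_inv_cancel]
  · right; rw [h]; simp

theorem index_sub : (Z2.subgroupOf Q8).index = 4 := relIndex_Z2_Q8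

/-- the prime `ab w` as an element of the spectrum -/
noncomputable def abH (w : Pl R.L) : HeightOneSpectrum (𝓞 R.N) :=
  ⟨R.ab w, inferInstance, R.ab_ne_bot w⟩

theorem below_abH (w : Pl R.L) : Density.below R.L (abH R w) = w := by
  apply HeightOneSpectrum.ext
  exact R.under_ab w

theorem mem_Z2_of_lam {w : Pl R.L} : R.fr w ∈ Z2.subgroupOf Q8 ↔ R.lam w ≠ 0 := by
  rw [Subgroup.mem_subgroupOf, mem_Z2, Octa.lam, trQ]
  split_ifs with h1 h2
  · simp [h1]
  · simp [h2]
  · simp [h1, h2]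

/-- **The killer element.** -/
theorem killL_octa (C : Cub R.K R.L) (D : Datum R.L) :
    KillL C D (fun w => (R.lam w : ℝ)) := by
  intro n hn hn2
  have := normal_sub
  set A : Set (Pl R.L) := {w | n w = 0 ∧ D.n w = 0 ∧ pl C w ≠ w ∧ R.lam w = 0} with hA
  set B : Set (Pl R.L) := {w | n w = 0 ∧ D.n w = 0 ∧ pl C w ≠ w ∧ R.lam w ≠ 0} with hB
  have hdis : Disjoint A B := by
    rw [Set.disjoint_left]
    rintro w h1 h2
    exact h2.2.2.2 h1.2.2.2
  have hbad : ({w | n w ≠ 0} ∪ {w | D.n w ≠ 0} ∪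
      {w : Pl R.L | pl C w = w ∧ (Ideal.absNorm w.asIdeal).Prime}).Finite :=
    (hn.union D.n_fin).union (finite_fix_prime C)
  obtain ⟨ϖ, S, h1, h2, h3, h4⟩ := KillGal.exists_killer_unit_gal (F := R.L) (N := R.N) Q8
    (Z2.subgroupOf Q8) (by rw [index_sub]; norm_num) hn hdis
    (by
      rintro w (h | h)
      · exact h.1
      · exact h.1)
    hbad
    (by
      intro w hw
      by_contra hcon
      push Not at hcon
      obtain ⟨hw1, hw2⟩ := hcon
      have h5 : n w = 0 := by
        by_contra h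
        exact hw1 (Or.inl (Or.inl h))
      have h6 : D.n w = 0 := by
        by_contra h
        exact hw1 (Or.inl (Or.inr h))
      have h7 : pl C w ≠ w := fun h => hw1 (Or.inr ⟨h, hw2⟩)
      apply hw
      by_cases h8 : R.lam w = 0
      · exact Or.inl ⟨h5, h6, h7, h8⟩
      · exact Or.inr ⟨h5, h6, h7, h8⟩)
    (fun w hw => ⟨abH R w, below_abH R w, R.fr w,
      fun h => (mem_Z2_of_lam R).mp h hw.2.2.2, R.fr_spec w⟩)
    (fun w hw => ⟨abH R w, below_abH R w, R.fr w, (mem_Z2_of_lam R).mpr hw.2.2.2, R.fr_spec w⟩)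
  refine ⟨ϖ, S, fun w hw => ?_, h2, h3, fun T hT => h4 T fun w => ?_⟩
  · have h5 : R.lam w = 2 ∨ R.lam w = -2 ∨ R.lam w = 0 := R.lam_eq_or w
    have h6 : ((R.lam w : ℝ) = 0 ∨ (R.lam w : ℝ) = 2 ∨ (R.lam w : ℝ) = -2) := by
      rcases h5 with h | h | h
      · right; left; rw [h]; norm_num
      · right; right; rw [h]; norm_num
      · left; rw [h]; norm_num
    rcases h1 w hw with h | h
    · exact ⟨h.2.1, h.2.2.1, h6⟩
    · exact ⟨h.2.1, h.2.2.1, h6⟩
  · rw [hT]
    constructor
    · rintro ⟨hS, hl⟩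
      refine ⟨hS, ?_⟩
      rcases h1 w hS with h | h
      · exact h
      · exact absurd (Int.cast_eq_zero.mp hl) h.2.2.2
    · rintro ⟨hS, hA⟩
      exact ⟨hS, Int.cast_eq_zero.mpr hA.2.2.2⟩

/-- **Auxiliary primes**: infinitely many places of degree one with trivial Frobenius. -/
theorem exists_big (C : Cub R.K R.L) {bad : Set (Pl R.L)} (hbad : bad.Finite) (b : ℝ)
    (hI : ∀ w ∉ bad, (R.ab w).inertia Q8 = ⊥) :
    ∃ w : Pl R.L, w ∉ bad ∧ Split C (SUH.below R.K w) w ∧ b < qv w ∧ R.lam w = 2 := by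
  have hfin : {w : Pl R.L | qv w ≤ b}.Finite := by
    have h1 : {I : Ideal (𝓞 R.L) | Ideal.absNorm I ≤ ⌊b⌋₊}.Finite :=
      Ideal.finite_setOfPred_absNorm_le _
    refine Set.Finite.of_injOn (f := fun w : Pl R.L => w.asIdeal) (fun w hw => ?_)
      (fun w _ w' _ h => HeightOneSpectrum.ext h) h1
    exact Nat.le_floor hw
  have hd := KillGal.density_frobIn (K := R.L) (L := R.N) Q8 (⊥ : Subgroup Q8)
  have hidx : ((⊥ : Subgroup Q8).index : ℝ) = 8 := by
    rw [Subgroup.index_bot, card_Q8]; norm_num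
  rw [hidx] at hd
  obtain ⟨w, hwT, hwB, hp⟩ := Density.exists_prime_of_density _ (by norm_num : (0 : ℝ) < 1 / 8) hd
    (bad ∪ {w : Pl R.L | qv w ≤ b} ∪
      {w : Pl R.L | pl C w = w ∧ (Ideal.absNorm w.asIdeal).Prime})
    ((hbad.union hfin).union (finite_fix_prime C))
  have h1 : w ∉ bad := fun h => hwB (Or.inl (Or.inl h))
  have h2 : b < qv w := by
    by_contra h
    exact hwB (Or.inl (Or.inr (not_lt.mp h)))
  have h3 : pl C w ≠ w := fun h => hwB (Or.inr ⟨h, hp⟩)
  refine ⟨w, h1, ?_, h2, ?_⟩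
  · rcases trichotomy C (above_below (K := R.K) w) with h | h | h
    · exact h
    · exact absurd h.fix h3
    · exact absurd h.fix h3
  · obtain ⟨σ, hσ, hF⟩ := KillGal.mem_frobIn_of Q8 (⊥ : Subgroup Q8) hwT (below_abH R w)
    rw [Subgroup.mem_bot] at hσ
    subst hσ
    rw [R.lam_eq w (R.ab w) (R.under_ab w) (hI w h1) hF]
    simp [trQ]

/-- `DescHyp.big` -/
theorem big_octa {C : Cub R.K R.L} (G : GeoDatum C)
    (hG : ∀ w, (R.ab w).inertia Q8 ≠ ⊥ → G.DL.n w ≠ 0)
    (hlam : ∀ w, G.DL.n w = 0 → R.lam (pl C w) = R.lam w) (b : ℝ) :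
    ∃ u, Split C u (G.up u) ∧ G.DL.n (G.up u) = 0 ∧ b < qv u ∧
      (R.lam (G.up u) : ℝ) = 2 := by
  set bad : Set (Pl R.L) := {w | G.DL.n w ≠ 0} ∪ {w | G.DL.n (pl C w) ≠ 0} ∪
    {w | G.DL.n (pl C (pl C w)) ≠ 0} with hbad
  have hfin : bad.Finite := by
    refine (G.DL.n_fin.union ?_).union ?_
    · exact G.DL.n_fin.preimage ((pl C).injective.injOn)
    · exact G.DL.n_fin.preimage (((pl C).injective.comp (pl C).injective).injOn)
  have hI : ∀ w ∉ bad, (R.ab w).inertia Q8 = ⊥ := by
    intro w hw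
    by_contra h
    apply hw
    refine Or.inl (Or.inl ?_)
    exact hG w h
  obtain ⟨w, hw, hs, hb, h2⟩ := exists_big R C hfin b hI
  have hn : G.DL.n w = 0 ∧ G.DL.n (pl C w) = 0 ∧ G.DL.n (pl C (pl C w)) = 0 := by
    refine ⟨?_, ?_, ?_⟩
    · by_contra h; exact hw (Or.inl (Or.inl h))
    · by_contra h; exact hw (Or.inl (Or.inr h))
    · by_contra h; exact hw (Or.inr h)
  set v := SUH.below R.K w with hv
  have hdown : G.down w = v := ((above_iff _ _).mp (G.above w)).symm
  have hsp : Split C v (G.up v) := by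
    rcases G.typ v with h | h | h
    · exact h
    · exact absurd h hs.not_inert
    · exact absurd h hs.not_ram
  have hcube := TwDatum.pl_cube (C := C)
  refine ⟨v, hsp, ?_⟩
  have hup := G.up_down w
  rw [hdown] at hup
  rcases hup with h | h | h
  · rw [← h]
    exact ⟨hn.1, by rw [← hs.q_eq]; exact hb, by rw [h2]; norm_num⟩
  · have h3 : pl C (pl C w) = G.up v := by rw [h, hcube]
    rw [← h3]
    refine ⟨hn.2.2, by rw [← hs.q_eq]; exact hb, ?_⟩
    rw [hlam _ hn.2.1, hlam _ hn.1, h2]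
    norm_num
  · have h3 : pl C w = G.up v := by
      rw [h]
      exact hcube _
    rw [← h3]
    refine ⟨hn.2.1, by rw [← hs.q_eq]; exact hb, ?_⟩
    rw [hlam _ hn.1, h2]
    norm_num

end octa

end Fermat.Agent.LT.Top
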