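import Fermat.Agent.LT.Top.PiLof
import Fermat.Agent.LT.I.New

/-!
# LT: `PiL` (existence of the theta form with the eigenvalues of an octahedral representation over `L`)
-/

set_option autoImplicit false

open NumberField IsDedekindDomain Matrix
open Fermat.LT Fermat.Agent.LT.B Fermat.Agent.LT.D Fermat.Agent.LT.K Fermat.Agent.LT.CTree
open Fermat.Agent.LT.I Fermat.Agent.LT.CArch

namespace Fermat.Agent.LT.Top

/-- **`PiL R`** for every octahedral datum. -/
theorem piL (R : Octa) : PiL R :=
  piL_of R fun _ h1 h2 h3 _ hU => Setup.newFn h1 h2 h3 hU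

end Fermat.Agent.LT.Top
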