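import Fermat.Agent.LT.Top.DescOf
import Fermat.Agent.LT.Top.PiLMain
import Fermat.Agent.LT.G.Main
import Fermat.Agent.LT.H.UniqL
import Fermat.Agent.LT.H5.PeriodNe
import Fermat.Agent.LT.K.Final

/-!
# LT: `LTCore`, unconditionally
-/

set_option autoImplicit false

open Fermat.Agent.LT.K

namespace Fermat.Agent.LT.Top

/-- **Output of the trace formula part.** -/
theorem ltCore : LTCore := ltCore_of_pieces G.descGeo piL H.uniqL H5.thetaJ

end Fermat.Agent.LT.Top
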