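import Fermat.Agent.LT.B.Cusp
import Fermat.Agent.LT.K.Places
import Fermat.Agent.LT.K.Frob
import Fermat.Agent.LT.K.Ram
import Fermat.Agent.LT.Geo.Match

/-!
# LT: the interfaces between the pieces, and `LTCore` from `Desc` and `ThetaJ`

`R : Octa` is a representation `ρ : Γℚ → GL₂(𝔽₃)`, with its fields `R.K = ℚ(ζ₃)`, `R.L` (cyclic
cubic over `R.K`) and the eigenvalues `R.lam w ∈ {2, -2, 0}` (`w` a place of `R.L`).

* `EForm D lam φ` : `φ` is a nonzero cusp form on `X D`, with archimedean parameters `0` and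
  `T_w φ = √q_w · lam w · φ` for all `w` with `D.n w = 0`.
* `Desc R` : the form on `R.K` (output of G, I, H).
* `ThetaJ R` : the theta lift (J, Asai).
* `ltCore_of : (∀ R, Desc R) → (∀ R, ThetaJ R) → LTCore`.
(helper23)
-/

set_option autoImplicit false

open NumberField IsDedekindDomain Matrix CongruenceSubgroup ModularFormClass
open Fermat.LT Fermat.Agent.LT.B Fermat.Agent.LT.D Fermat.Agent.LT.K
open scoped MatrixGroups ModularForm

namespace Fermat.Agent.LT.Top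

local notation "Γℚ" => (AlgebraicClosure ℚ ≃ₐ[ℚ] AlgebraicClosure ℚ)

section forms

variable {F : Type} [Field F] [NumberField F]

/-- the good places -/
def goodPl (D : Datum F) : Set (Pl F) := {w | D.n w = 0}

/-- Cuspidal eigenforms with archimedean parameters `0`. -/
structure EForm (D : Datum F) (lam : Pl F → ℝ) (φ : X D → ℂ) : Prop where
  cusp : IsCusp φ
  eig : IsEig (goodPl D) (fun w => (lam w : ℂ)) 0 φ
  ne : φ ≠ 0

/-- The level of `D` divides the integer `M`. -/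
structure LevelDvd (D : Datum F) (M : ℕ) : Prop where
  good : ∀ w : Pl F, av w (M : F) = 1 → D.n w = 0
  le : ∀ (w : Pl F) (g : G2 F), g ∈ intGL w → nm w (g.1 - 1) ≤ av w (M : F) → g ∈ D.H w

end forms

variable (R : Octa)

/-- the eigenvalues of the form on `K` at the places of degree one over which there is a place of
`L` of degree one -/
def Compat (D : Datum R.K) (lam : Pl R.K → ℝ) : Prop :=
  ∀ (v : Pl R.K) (w : Pl R.L), D.n v = 0 → Above v w → qv w = qv v → lam v = R.lam w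

/-- **Output of G** : the cuspidal form on `K = ℚ(ζ₃)`. -/
def Desc : Prop :=
  ∃ (D : Datum R.K) (M : ℕ) (lam : Pl R.K → ℝ) (Φ : X D → ℂ),
    M ≠ 0 ∧ (∀ q : ℕ, q.Prime → q ≠ 3 → ¬ q ^ 2 ∣ M) ∧ (TameAtThree R.ρ → ¬ 3 ∣ M) ∧
    LevelDvd D M ∧ EForm D lam Φ ∧ Compat R D lam

/-- **Output of J** (and of the non-vanishing of the Asai period, H5): the theta lift. -/
def ThetaJ : Prop :=
  ∀ (D : Datum R.K) (M : ℕ) (lam : Pl R.K → ℝ) (Φ : X D → ℂ), M ≠ 0 →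
    LevelDvd D M → EForm D lam Φ → Compat R D lam →
    ∃ (f : CuspForm (Gamma1 (3 * M ^ 2)) 1) (T : Finset ℕ), f ≠ 0 ∧
      (∀ γ ∈ Gamma0 (3 * M ^ 2), (⇑f ∣[(1 : ℤ)] γ) = ((chi3 (γ 1 1) : ℤ) : ℂ) • ⇑f) ∧
      ∀ p : ℕ, p.Prime → p ∉ T → ∀ v : Pl R.K, qv v = p →
        (∃ w : Pl R.L, Above v w ∧ qv w = qv v) →
        ∀ n : ℕ, qCoeff ⇑f (p * n) + (if p ∣ n then qCoeff ⇑f (n / p) else 0) =
          (lam v : ℂ) * qCoeff ⇑f n

theorem absNorm_und {H : Subgroup G3} {A : ValuationSubring (AlgebraicClosure ℚ)} {ℓ : ℕ}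
    (hℓ : ℓ.Prime) (hA : A.LiesOverPrime ℓ) {σ : Γℚ} (hσ : A.IsFrobeniusAt σ ℓ)
    (hQ : R.ρ σ ∈ H) : qv (R.und H (R.cen A) (R.cen_ne_bot hℓ hA)) = ℓ := by
  rw [qv, Ideal.absNorm_apply, Submodule.cardQuot_apply]
  exact_mod_cast R.card_und_cen hℓ hA hσ hQ

theorem above_und {P : Ideal (𝓞 R.N)} [P.IsPrime] (hP : P ≠ ⊥) :
    Above (R.und SLs P hP) (R.und Q8 P hP) := by
  intro x
  change algebraMap (𝓞 R.K) (𝓞 R.N) x ∈ P ↔
    algebraMap (𝓞 R.L) (𝓞 R.N) (algebraMap (𝓞 R.K) (𝓞 R.L) x) ∈ P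
  rfl

theorem ltCore_of (hD : ∀ R : Octa, Desc R) (hJ : ∀ R : Octa, ThetaJ R) : LTCore := by
  intro ρ hρ
  let R : Octa := ⟨ρ, hρ⟩
  obtain ⟨D, M, lam, Φ, hM, hsq, ht, hlev, hΦ, hc⟩ := hD R
  obtain ⟨f, T, hf, hchar, hrel⟩ := hJ R D M lam Φ hM hlev hΦ hc
  have h3 : Nat.Prime 3 := Nat.prime_three
  -- the bad primes
  have hfin : {p : ℕ | ∃ v : Pl R.K, D.n v ≠ 0 ∧ qv v = p}.Finite := by
    refine (D.n_fin.image fun v => Ideal.absNorm v.asIdeal).subset ?_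
    rintro p ⟨v, hv, hp⟩
    refine ⟨v, hv, ?_⟩
    change (Ideal.absNorm v.asIdeal : ℝ) = p at hp
    exact_mod_cast hp
  refine ⟨3 * M ^ 2, f, T ∪ {3} ∪ hfin.toFinset, by positivity, Dvd.intro _ rfl, hf, hchar, ?_, ?_, ?_⟩
  · intro q hq hq3 hdvd
    have hc3 : Nat.Coprime (q ^ 3) 3 :=
      Nat.Coprime.pow_left _ ((Nat.coprime_primes hq h3).mpr hq3)
    have h1 : q ^ 3 ∣ M ^ 2 := hc3.dvd_of_dvd_mul_left hdvd
    by_cases hqM : q ∣ M
    · obtain ⟨m, rfl⟩ := hqM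
      have h2 : ¬ q ∣ m := fun ⟨k, hk⟩ => hsq q hq hq3 ⟨k, by rw [hk]; ring⟩
      have h4 : q ^ 3 ∣ q ^ 2 * m ^ 2 := by rwa [mul_pow] at h1
      have h5 : q ∣ m ^ 2 := by
        have : q ^ 2 * q ∣ q ^ 2 * m ^ 2 := by rwa [← pow_succ]
        exact Nat.dvd_of_mul_dvd_mul_left (pow_pos hq.pos 2) this
      exact h2 (hq.dvd_of_dvd_pow h5)
    · exact hqM (hq.dvd_of_dvd_pow ((dvd_pow_self q (by norm_num)).trans h1))
  · intro htame h9
    have h1 : 3 ∣ M ^ 2 := by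
      have : 3 * 3 ∣ 3 * M ^ 2 := h9
      exact Nat.dvd_of_mul_dvd_mul_left (by norm_num) this
    exact ht htame (h3.dvd_of_dvd_pow h1)
  · intro p hp hpT A hA σ hσ hdet h4 n
    rw [Finset.mem_union, Finset.mem_union, Finset.mem_singleton, Set.Finite.mem_toFinset] at hpT
    push Not at hpT
    obtain ⟨⟨hpT, hp3⟩, hpn⟩ := hpT
    have hQ : R.ρ σ ∈ Q8 := mem_Q8_iff.mpr ⟨hdet, h4⟩
    have hS : R.ρ σ ∈ SLs := Q8_le_SLs hQ
    set v := R.und SLs (R.cen A) (R.cen_ne_bot hp hA) with hv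
    set w := R.und Q8 (R.cen A) (R.cen_ne_bot hp hA) with hw
    have hqv : qv v = p := absNorm_und R hp hA hσ hS
    have hqw : qv w = p := absNorm_und R hp hA hσ hQ
    have hab : Above v w := above_und R (R.cen_ne_bot hp hA)
    have hn : D.n v = 0 := by
      by_contra hne
      exact hpn ⟨v, hne, hqv⟩
    have h3P : (3 : 𝓞 R.N) ∉ R.cen A := by
      intro hmem
      have h1 : ((3 : ℕ) : 𝓞 R.N) ∈ R.cen A := by exact_mod_cast hmem
      have h2 : ((p : ℕ) : 𝓞 R.N) ∈ R.cen A := R.natCast_mem_cen.mpr hA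
      have hcop : Nat.Coprime 3 p := (Nat.coprime_primes h3 hp).mpr (Ne.symm hp3)
      have hone : (1 : 𝓞 R.N) ∈ R.cen A := by
        have hbz := Nat.gcd_eq_gcd_ab 3 p
        rw [hcop.gcd_eq_one] at hbz
        have e : (1 : 𝓞 R.N) = ((3 : ℕ) : 𝓞 R.N) * ((Nat.gcdA 3 p : ℤ) : 𝓞 R.N) +
            ((p : ℕ) : 𝓞 R.N) * ((Nat.gcdB 3 p : ℤ) : 𝓞 R.N) := by
          exact_mod_cast congrArg (fun z : ℤ => (z : 𝓞 R.N)) hbz
        rw [e]
        exact Ideal.add_mem _ (Ideal.mul_mem_right _ _ h1) (Ideal.mul_mem_right _ _ h2)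
      exact (inferInstance : (R.cen A).IsPrime).ne_top ((Ideal.eq_top_iff_one _).mpr hone)
    have hI : (R.cen A).inertia Q8 = ⊥ := R.inertia_Q8 (R.cen_ne_bot hp hA) h3P
    have hlam : R.lam w = trQ (R.ρ σ) := R.lam_cen hp hA hI hσ hQ
    have hrel' := hrel p hp hpT v hqv ⟨w, hab, by rw [hqw, hqv]⟩ n
    rw [hc v w hn hab (by rw [hqw, hqv]), hlam] at hrel'
    rw [hrel']
    norm_cast

end Fermat.Agent.LT.Top
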