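import Fermat.Agent.LT.Top.Iface
import Fermat.Agent.LT.Geo.Places

/-!
# LT, wiring: the integer `M` attached to a level structure (item D6), and the set of tamely
ramified places (D7)

* `exists_levM` : if the conductor exponents of `D` are `≤ 1` on a finite set `S` of places not
  above `3`, and bounded above `3`, zero elsewhere, then there is an integer `M`, squarefree away
  from `3` with `LevelDvd D M`; and `3 ∤ M` if `D` has full level above `3`.
* `tameRam_finite`, `av_three_eq_one_iff`.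
(helper47)
-/

set_option autoImplicit false

open NumberField IsDedekindDomain Matrix
open Fermat.LT Fermat.Agent.LT.D Fermat.Agent.LT.K

namespace Fermat.Agent.LT.Top

section levM

variable {F : Type} [Field F] [NumberField F]

namespace LevM

/-- the rational prime below a place -/
theorem exists_prime_below (v : Pl F) : ∃ q : ℕ, q.Prime ∧ ((q : ℕ) : 𝓞 F) ∈ v.asIdeal := by
  have h1 : v.asIdeal.under ℤ ≠ ⊥ := fun h => v.ne_bot (Ideal.eq_bot_of_comap_eq_bot h)
  have h2 : (v.asIdeal.under ℤ).IsPrime := inferInstance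
  obtain ⟨a, ha⟩ := IsPrincipalIdealRing.principal (v.asIdeal.under ℤ)
  rw [Ideal.submodule_span_eq] at ha
  have hmem : a ∈ v.asIdeal.under ℤ := by rw [ha]; exact Ideal.mem_span_singleton_self a
  rw [ha] at h1 h2
  have ha0 : a ≠ 0 := fun h => h1 (by rw [h]; simp)
  have h3 := (Ideal.span_singleton_prime ha0).mp h2
  refine ⟨a.natAbs, Int.prime_iff_natAbs_prime.mp h3, ?_⟩
  have h4 : algebraMap ℤ (𝓞 F) a ∈ v.asIdeal := hmem
  have h4' : ((a : ℤ) : 𝓞 F) ∈ v.asIdeal := by simpa using h4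
  have h6 : (((a.natAbs : ℕ) : ℤ) : 𝓞 F) ∈ v.asIdeal := by
    rcases Int.natAbs_eq a with h | h
    · rw [← h]; exact h4'
    · have h5 : ((a.natAbs : ℕ) : ℤ) = -a := by omega
      rw [h5, Int.cast_neg]
      exact neg_mem h4'
  rwa [Int.cast_natCast] at h6

theorem av_le_one_of_int (w : Pl F) (r : 𝓞 F) : av w (r : F) ≤ 1 := by
  have := (mem_pow_iff w r 0).mp (by simp)
  simpa using this

theorem av_nat_le_one (w : Pl F) (m : ℕ) : av w (m : F) ≤ 1 := by
  have := av_le_one_of_int w (m : 𝓞 F)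
  simpa using this

theorem av_nat_le_of_mem {w : Pl F} {m : ℕ} (h : ((m : ℕ) : 𝓞 F) ∈ w.asIdeal) :
    av w (m : F) ≤ (qv w)⁻¹ := by
  have := (mem_pow_iff w (m : 𝓞 F) 1).mp (by simpa using h)
  simpa using this

theorem av_nat_lt_one_of_mem {w : Pl F} {m : ℕ} (h : ((m : ℕ) : 𝓞 F) ∈ w.asIdeal) :
    av w (m : F) < 1 :=
  (av_nat_le_of_mem h).trans_lt (inv_lt_one_of_one_lt₀ (one_lt_qv w))

theorem av_nat_eq_one_iff {w : Pl F} {m : ℕ} : av w (m : F) = 1 ↔ ((m : ℕ) : 𝓞 F) ∉ w.asIdeal := by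
  constructor
  · intro h hm
    exact (av_nat_lt_one_of_mem hm).ne h
  · intro h
    refine le_antisymm (av_nat_le_one w m) ?_
    by_contra hlt
    push Not at hlt
    apply h
    have hle : av w ((m : 𝓞 F) : F) ≤ (qv w)⁻¹ ^ 1 := by
      have hm0 : (m : 𝓞 F) ≠ 0 := by
        intro h0
        exact h (by rw [h0]; exact zero_mem _)
      have h2 := av_int_eq w hm0
      set k := Fermat.Agent.MW.Selmer.cnt w (Units.mk0 ((m : 𝓞 F) : F) (by simpa using hm0)) with hk
      have h3 : ((m : 𝓞 F) : F) = (m : F) := by simp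
      have h4 : 0 < k := by
        by_contra hk0
        push Not at hk0
        have h5 : 1 ≤ qv w ^ (-k) := one_le_zpow₀ (one_lt_qv w).le (by omega)
        rw [← h2, h3] at h5
        exact absurd hlt (not_lt.mpr h5)
      rw [h2, inv_pow, ← zpow_natCast, ← _root_.zpow_neg]
      exact zpow_le_zpow_right₀ (one_lt_qv w).le (by push_cast; omega)
    have := (mem_pow_iff w (m : 𝓞 F) 1).mpr hle
    simpa using this

end LevM

open LevM

/-- `|3|_v = 1` iff `v` is not above `3`. -/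
theorem av_three_eq_one_iff {v : Pl F} : av v (3 : F) = 1 ↔ (3 : 𝓞 F) ∉ v.asIdeal := by
  have := av_nat_eq_one_iff (w := v) (m := 3)
  simpa using this

theorem LevM.mem_H_of_le {D : Datum F} {w : Pl F} {n : ℕ} (h : congGL w n ≤ D.H w) {r : ℝ}
    (hr : r ≤ (qv w)⁻¹ ^ n) {g : G2 F} (hg : g ∈ intGL w) (hn : nm w (g.1 - 1) ≤ r) :
    g ∈ D.H w := h ⟨hg, hn.trans hr⟩

/-- **The integer `M`.** -/
theorem exists_levM (D : Datum F) (T : Prop) (n3 : ℕ) (S : Set (Pl F)) (hS : S.Finite)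
    (hS3 : ∀ v ∈ S, (3 : 𝓞 F) ∉ v.asIdeal)
    (h0 : ∀ v, v ∉ S → (3 : 𝓞 F) ∉ v.asIdeal → D.n v = 0)
    (h1 : ∀ v ∈ S, congGL v 1 ≤ D.H v)
    (hT : T → ∀ v : Pl F, (3 : 𝓞 F) ∈ v.asIdeal → D.n v = 0)
    (h3 : ¬ T → ∀ v : Pl F, (3 : 𝓞 F) ∈ v.asIdeal → congGL v n3 ≤ D.H v) :
    ∃ M : ℕ, M ≠ 0 ∧ (∀ q : ℕ, q.Prime → q ≠ 3 → ¬ q ^ 2 ∣ M) ∧ (T → ¬ 3 ∣ M) ∧ LevelDvd D M := by
  classical
  choose qb hqb hqbm using fun v : Pl F => exists_prime_below v
  set Q : Finset ℕ := hS.toFinset.image qb with hQ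
  have hQp : ∀ q ∈ Q, q.Prime := by
    intro q hq
    obtain ⟨v, -, rfl⟩ := Finset.mem_image.mp hq
    exact hqb v
  have hQ3 : ∀ q ∈ Q, q ≠ 3 := by
    intro q hq h
    obtain ⟨v, hv, rfl⟩ := Finset.mem_image.mp hq
    have := hqbm v
    rw [h] at this
    exact hS3 v (hS.mem_toFinset.mp hv) (by simpa using this)
  have hsf : Squarefree (∏ q ∈ Q, q) :=
    Finset.squarefree_prod_of_pairwise_isCoprime
      (fun q hq r hr hne => Nat.coprime_iff_isRelPrime.mp
        ((Nat.coprime_primes (hQp q hq) (hQp r hr)).mpr hne)) (fun q hq => (hQp q hq).squarefree)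
  have h3Q : ¬ 3 ∣ ∏ q ∈ Q, q := by
    intro h
    obtain ⟨q, hq, hd⟩ := (Nat.prime_three.prime.dvd_finsetProd_iff _).mp h
    exact hQ3 q hq ((Nat.prime_dvd_prime_iff_eq Nat.prime_three (hQp q hq)).mp hd).symm
  have hQ0 : ∏ q ∈ Q, q ≠ 0 := Finset.prod_ne_zero_iff.mpr fun q hq => (hQp q hq).ne_zero
  set e : ℕ := if T then 0 else n3 + 1 with he
  set M : ℕ := (∏ q ∈ Q, q) * 3 ^ e with hM
  have hMq : ∀ v ∈ S, av v (M : F) ≤ (qv v)⁻¹ := by
    intro v hv
    have hq : qb v ∈ Q := Finset.mem_image.mpr ⟨v, hS.mem_toFinset.mpr hv, rfl⟩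
    obtain ⟨m, hm⟩ : qb v ∣ M := (Finset.dvd_prod_of_mem _ hq).trans (Dvd.intro _ rfl)
    rw [hm, Nat.cast_mul, map_mul]
    have h5 := av_nat_le_of_mem (hqbm v)
    have h6 := av_nat_le_one v m
    calc av v (qb v : F) * av v (m : F) ≤ av v (qb v : F) * 1 :=
          mul_le_mul_of_nonneg_left h6 ((av v).nonneg _)
      _ ≤ _ := by rw [mul_one]; exact h5
  have hM3 : ∀ v : Pl F, (3 : 𝓞 F) ∈ v.asIdeal → av v (M : F) ≤ (qv v)⁻¹ ^ e := by
    intro v hv
    rw [hM, Nat.cast_mul, map_mul, Nat.cast_pow, map_pow]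
    have h5 := av_nat_le_of_mem (w := v) (m := 3) (by simpa using hv)
    have h6 := av_nat_le_one v (∏ q ∈ Q, q)
    calc av v ((∏ q ∈ Q, q : ℕ) : F) * av v ((3 : ℕ) : F) ^ e
        ≤ 1 * av v ((3 : ℕ) : F) ^ e :=
          mul_le_mul_of_nonneg_right h6 (pow_nonneg ((av v).nonneg _) _)
      _ = av v ((3 : ℕ) : F) ^ e := one_mul _
      _ ≤ _ := pow_le_pow_left₀ ((av v).nonneg _) h5 _
  refine ⟨M, mul_ne_zero hQ0 (pow_ne_zero _ (by norm_num)), ?_, ?_, ⟨?_, ?_⟩⟩
  · intro q hq hq3 hd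
    have hc : Nat.Coprime (q ^ 2) (3 ^ e) :=
      Nat.Coprime.pow _ _ ((Nat.coprime_primes hq Nat.prime_three).mpr hq3)
    have h5 : q ^ 2 ∣ ∏ q ∈ Q, q := hc.dvd_of_dvd_mul_right hd
    have h6 := hsf q (by rwa [sq] at h5)
    exact hq.one_lt.ne' (Nat.isUnit_iff.mp h6)
  · intro hTt hd
    have he0 : e = 0 := by rw [he, if_pos hTt]
    rw [hM, he0, pow_zero, mul_one] at hd
    exact h3Q hd
  · intro w hw
    by_contra hn
    by_cases h3w : (3 : 𝓞 F) ∈ w.asIdeal
    · by_cases hTt : T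
      · exact hn (hT hTt w h3w)
      · have h5 := hM3 w h3w
        have he1 : e = n3 + 1 := by rw [he, if_neg hTt]
        rw [hw, he1] at h5
        have h6 : (qv w)⁻¹ ^ (n3 + 1) < 1 :=
          pow_lt_one₀ (inv_nonneg.mpr (qv_pos w).le) (inv_lt_one_of_one_lt₀ (one_lt_qv w))
            (Nat.succ_ne_zero _)
        exact absurd h5 (not_le.mpr h6)
    · have hwS : w ∈ S := by
        by_contra hwS
        exact hn (h0 w hwS h3w)
      have h5 := hMq w hwS
      rw [hw] at h5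
      exact absurd h5 (not_le.mpr (inv_lt_one_of_one_lt₀ (one_lt_qv w)))
  · intro w g hg hgn
    by_cases hn : D.n w = 0
    · rw [D.toLevel.H_eq hn]
      exact intGL_le_stdH w hg
    · by_cases h3w : (3 : 𝓞 F) ∈ w.asIdeal
      · have hTt : ¬ T := fun hTt => hn (hT hTt w h3w)
        refine mem_H_of_le (h3 hTt w h3w) ?_ hg hgn
        refine (hM3 w h3w).trans ?_
        rw [he, if_neg hTt]
        exact pow_le_pow_of_le_one (inv_nonneg.mpr (qv_pos w).le)
          (inv_le_one_of_one_le₀ (one_lt_qv w).le) (Nat.le_succ _)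
      · have hwS : w ∈ S := by
          by_contra hwS
          exact hn (h0 w hwS h3w)
        exact mem_H_of_le (h1 w hwS) (by rw [pow_one]; exact hMq w hwS) hg hgn

end levM

section ram

variable {K L : Type} [Field K] [NumberField K] [Field L] [NumberField L] [Algebra K L]

/-- the ramified places of `K` not above `3` -/
def tameRam (C : Cub K L) : Set (Pl K) := {v | (3 : 𝓞 K) ∉ v.asIdeal ∧ ∃ w, Ram C v w}

theorem tameRam_finite (C : Cub K L) : (tameRam C).Finite :=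
  (ram_finite C).subset fun _ hv => hv.2

theorem three_notMem_of_tameRam {C : Cub K L} {v : Pl K} (hv : v ∈ tameRam C) :
    (3 : 𝓞 K) ∉ v.asIdeal := hv.1

end ram

end Fermat.Agent.LT.Top
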