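import Fermat.Agent.LT.Geo.MkGeo
import Fermat.Agent.LT.K.Local
import Fermat.Agent.LT.Geo.AvPl

/-!
# LT, top level: the cyclic cubic extension `R.L / R.K` as a `Cub`, and its comparison datum
-/

set_option autoImplicit false
set_option linter.unusedSectionVars false

open NumberField IsDedekindDomain Matrix Module Pointwise
open Fermat.Agent.LT.D Fermat.Agent.CFT Fermat.Agent.LT.K

namespace Fermat.LT.Top

/-- a cyclic cubic extension gives a `Cub` -/
theorem exists_cub (K L : Type) [Field K] [Field L] [Algebra K L] [FiniteDimensional K L]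
    [IsGalois K L] (h : Nat.card (L ≃ₐ[K] L) = 3) [IsCyclic (L ≃ₐ[K] L)] : Nonempty (Cub K L) := by
  obtain ⟨σ, hσ⟩ := IsCyclic.exists_generator (α := L ≃ₐ[K] L)
  have ho : orderOf σ = 3 := by rw [orderOf_eq_card_of_forall_mem_zpowers hσ, h]
  refine ⟨⟨σ, ?_, ?_, ?_⟩⟩
  · intro x
    have h3 : σ ^ 3 = 1 := by rw [← ho]; exact pow_orderOf_eq_one _
    have := DFunLike.congr_fun h3 x
    exact this
  · by_contra hcon
    push Not at hcon
    have h1 : σ = 1 := AlgEquiv.ext hcon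
    rw [h1, orderOf_one] at ho
    omega
  · intro x hx
    have hfix : ∀ g : L ≃ₐ[K] L, g x = x := by
      intro g
      obtain ⟨n, rfl⟩ := Subgroup.mem_zpowers_iff.mp (hσ g)
      have hs : σ ∈ MulAction.stabilizer (L ≃ₐ[K] L) x := hx
      exact Subgroup.zpow_mem _ hs n
    have h2 : x ∈ IntermediateField.fixedField (⊤ : Subgroup (L ≃ₐ[K] L)) := by
      intro g
      exact hfix g.1
    rw [IsGalois.fixedField_top, IntermediateField.mem_bot] at h2
    exact h2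

end Fermat.LT.Top

namespace Fermat.Agent.LT.K.Octa

open Fermat.LT Fermat.LT.Top

variable (R : Octa)

/-- the cubic extension `L / K` -/
noncomputable def cub : Cub R.K R.L := (exists_cub R.K R.L R.card_gal_KL).some

/-- an embedding `L → ℂ` -/
noncomputable def phi : R.L →+* ℂ :=
  ((IsAlgClosed.lift (R := ℚ) (S := AlgebraicClosure ℚ) (M := ℂ)).toRingHom).comp
    (algebraMap R.L (AlgebraicClosure ℚ))

theorem phi_K : ¬ ComplexEmbedding.IsReal (R.phi.comp (algebraMap R.K R.L)) := by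
  intro h
  have h1 := InfinitePlace.not_isComplex_iff_isReal.mpr (InfinitePlace.isReal_mk_iff.mpr h)
  exact h1 (IsTotallyComplex.isComplex _)

/-! ### lifting automorphisms of `L / K` -/

theorem exists_lift (τ : R.L ≃ₐ[R.K] R.L) :
    ∃ g ∈ SLs, ∀ x : R.L, g • algebraMap R.L R.N x = algebraMap R.L R.N (τ x) := by
  let T : R.N ≃ₐ[R.K] R.N := τ.liftNormal R.N
  have hT : ∀ x : R.L, T (algebraMap R.L R.N x) = algebraMap R.L R.N (τ x) :=
    fun x => τ.liftNormal_commutes R.N x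
  let T' : R.N ≃ₐ[ℚ] R.N := T.restrictScalars ℚ
  have hsmul : ∀ x : R.N, R.galN T' • x = T x := by
    intro x
    rw [R.smul_def, MulEquiv.symm_apply_apply]
    rfl
  refine ⟨R.galN T', ?_, fun x => by rw [hsmul, hT]⟩
  obtain ⟨σ, hσ⟩ := R.isOcta.surj (R.galN T')
  rw [← hσ, ← R.fixes_iff]
  intro x hx
  have h1 := R.coe_ρ_smul σ (algebraMap R.K R.N ⟨x, hx⟩)
  rw [hσ, hsmul, T.commutes] at h1
  exact h1.symm

theorem not_mem_Q8_of_lift {g : G3} (hg : ∀ x : R.L, g • algebraMap R.L R.N x =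
    algebraMap R.L R.N (R.cub.σ x)) : g ∉ Q8 := by
  intro h
  obtain ⟨x, hx⟩ := R.cub.ne
  apply hx
  apply (algebraMap R.L R.N).injective
  rw [← hg]
  obtain ⟨σ, rfl⟩ := R.isOcta.surj g
  apply Subtype.ext
  rw [R.coe_ρ_smul]
  exact R.apply_eq h x.2

theorem lift_int {g : G3} (hg : ∀ x : R.L, g • algebraMap R.L R.N x =
    algebraMap R.L R.N (R.cub.σ x)) (x : 𝓞 R.L) : g • algebraMap (𝓞 R.L) (𝓞 R.N) x =
    algebraMap (𝓞 R.L) (𝓞 R.N) (RingOfIntegers.mapRingEquiv (R.cub.σ : R.L ≃+* R.L) x) := by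
  apply RingOfIntegers.ext
  exact hg (x : R.L)

/-- a lift of `σ` moves primes above `w` to primes above `σ w` -/
theorem under_smul_lift {g : G3} (hg : ∀ x : R.L, g • algebraMap R.L R.N x =
    algebraMap R.L R.N (R.cub.σ x)) (w : Pl R.L) :
    (g • R.ab w).under (𝓞 R.L) = (pl R.cub w).asIdeal := by
  ext x
  obtain ⟨y, rfl⟩ := (RingOfIntegers.mapRingEquiv (R.cub.σ : R.L ≃+* R.L)).surjective x
  rw [Ideal.mem_comap, ← R.lift_int hg, Ideal.smul_mem_pointwise_smul_iff]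
  rw [show (RingOfIntegers.mapRingEquiv (R.cub.σ : R.L ≃+* R.L)) y ∈ (pl R.cub w).asIdeal ↔
    y ∈ w.asIdeal from mem_plEquiv _ w y, ← R.under_ab w, Ideal.mem_comap]

theorem exists_stab_of_fix {w : Pl R.L} (h : pl R.cub w = w) : ∃ g ∈ SLs, g ∉ Q8 ∧
    g • R.ab w = R.ab w ∧ ∀ x : R.L, g • algebraMap R.L R.N x =
    algebraMap R.L R.N (R.cub.σ x) := by
  obtain ⟨g, hgS, hg⟩ := R.exists_lift R.cub.σ
  have h1 := R.under_smul_lift hg w
  rw [h] at h1
  obtain ⟨q, hq⟩ := R.exists_smul_ab w (g • R.ab w) h1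
  have hlift : ∀ x : R.L, ((q : G3)⁻¹ * g) • algebraMap R.L R.N x =
      algebraMap R.L R.N (R.cub.σ x) := by
    intro x
    rw [mul_smul, hg]
    obtain ⟨σ, hσ⟩ := R.isOcta.surj (q : G3)⁻¹
    rw [← hσ]
    apply Subtype.ext
    rw [R.coe_ρ_smul]
    exact R.apply_eq (by rw [hσ]; exact inv_mem q.2) (R.cub.σ x).2
  refine ⟨(q : G3)⁻¹ * g, mul_mem (inv_mem (Q8_le_SLs q.2)) hgS, R.not_mem_Q8_of_lift hlift, ?_,
    hlift⟩
  rw [mul_smul, hq]
  exact inv_smul_smul (q : G3) (R.ab w)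

theorem mem_w_iff {w : Pl R.L} (x : 𝓞 R.L) : algebraMap (𝓞 R.L) (𝓞 R.N) x ∈ R.ab w ↔
    x ∈ w.asIdeal := by
  rw [← R.under_ab w, Ideal.mem_comap]

/-- ramified in the sense of `Ram` implies ramified in the sense of inertia groups -/
theorem exists_inertia_of_ram {v : Pl R.K} {w : Pl R.L} (h : Ram R.cub v w) :
    ∃ g ∈ (R.ab w).inertia G3, g ∈ SLs ∧ g ∉ Q8 := by
  obtain ⟨g, hgS, hgQ, hgP, hg⟩ := R.exists_stab_of_fix h.fix
  refine R.exists_inertia_of_triv hgP hgS hgQ fun x => ?_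
  rw [R.lift_int hg, ← map_sub, R.mem_w_iff]
  have h1 := h.inertia (x := (x : R.L)) (E.av_int_le_one w x)
  rw [← E.av_int_lt_one_iff]
  exact h1

/-- `N / L` is unramified at the places of `L` which are fixed by `σ`. -/
theorem inertia_Q8_of_fix {w : Pl R.L} (h : pl R.cub w = w) : (R.ab w).inertia Q8 = ⊥ := by
  by_cases h3 : (3 : 𝓞 R.N) ∈ R.ab w
  · by_cases ht : TameAtThree R.ρ
    · have h1 := R.inertia_SLs_of_tame ht h3
      rw [Subgroup.eq_bot_iff_forall] at h1 ⊢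
      intro x hx
      have h2 := h1 ⟨x, Q8_le_SLs x.2⟩ hx
      have h3' : (x : G3) = 1 := congrArg Subtype.val h2
      exact Subtype.ext h3'
    · by_cases hI : ∀ g ∈ (R.ab w).inertia G3, g ∈ SLs → g ∈ Q8
      · exfalso
        obtain ⟨g, hgS, hgQ, hgP, -⟩ := R.exists_stab_of_fix h
        exact hgQ (R.stab_le_Q8 ht h3 hI hgP hgS)
      · push Not at hI
        obtain ⟨g, hg, hgS, hgQ⟩ := hI
        exact R.inertia_Q8_of_ram (R.ab_ne_bot w) hg hgS hgQ
  · exact R.inertia_Q8 (R.ab_ne_bot w) h3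

/-- If `ρ` is tame at `3` then `L / K` is unramified at `3`. -/
theorem three_notMem_of_ram_of_tame (ht : TameAtThree R.ρ) {v : Pl R.K} {w : Pl R.L}
    (h : Ram R.cub v w) : (3 : 𝓞 R.N) ∉ R.ab w := by
  intro h3
  obtain ⟨g, hg, hgS, hgQ⟩ := R.exists_inertia_of_ram h
  have h1 := R.inertia_SLs_of_tame ht h3
  rw [Subgroup.eq_bot_iff_forall] at h1
  have h2 := h1 ⟨g, hgS⟩ hg
  apply hgQ
  have h3 : g = 1 := congrArg Subtype.val h2
  rw [h3]
  exact Q8.one_mem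

/-- inertia groups at the primes above `σ w` -/
theorem inertia_Q8_pl {w : Pl R.L} (h : (R.ab w).inertia Q8 = ⊥) :
    (R.ab (pl R.cub w)).inertia Q8 = ⊥ := by
  obtain ⟨g, hgS, hg⟩ := R.exists_lift R.cub.σ
  obtain ⟨q, hq⟩ := R.exists_smul_ab (pl R.cub w) (g • R.ab w) (R.under_smul_lift hg w)
  rw [Subgroup.eq_bot_iff_forall] at h ⊢
  intro x hx
  have hxI : (x : G3) ∈ (R.ab (pl R.cub w)).inertia G3 := hx
  set y : G3 := g⁻¹ * q with hy
  have hyP : y • R.ab (pl R.cub w) = R.ab w := by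
    rw [hy, mul_smul]
    have : (q : G3) • R.ab (pl R.cub w) = g • R.ab w := hq.symm
    rw [this, inv_smul_smul]
  have h1 : y * x * y⁻¹ ∈ (R.ab w).inertia G3 := by
    intro z
    change (y * x * y⁻¹) • z - z ∈ R.ab w
    rw [← hyP, Ideal.mem_pointwise_smul_iff_inv_smul_mem]
    have h4 := hxI (y⁻¹ • z)
    change (x : G3) • y⁻¹ • z - y⁻¹ • z ∈ R.ab (pl R.cub w) at h4
    have e : y⁻¹ • ((y * x * y⁻¹) • z - z) = (x : G3) • y⁻¹ • z - y⁻¹ • z := by
      rw [smul_sub, ← mul_smul, ← mul_smul]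
      congr 2
      group
    rw [e]
    exact h4
  have h2 : y * x * y⁻¹ ∈ Q8 := (inferInstance : Q8.Normal).conj_mem _ x.2 y
  have h3 := congrArg Subtype.val (h ⟨_, h2⟩ h1)
  change y * x * y⁻¹ = 1 at h3
  rw [mul_inv_eq_one, mul_eq_left] at h3
  exact Subtype.ext h3

/-- **The eigenvalues are invariant under `σ`.** -/
theorem lam_pl {w : Pl R.L} (h : (R.ab w).inertia Q8 = ⊥) :
    R.lam (pl R.cub w) = R.lam w := by
  obtain ⟨g, hgS, hg⟩ := R.exists_lift R.cub.σ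
  have hu := R.under_smul_lift hg w
  have hP : (g • R.ab w).IsPrime := inferInstance
  -- inertia
  have hI : (g • R.ab w).inertia Q8 = ⊥ := by
    rw [Subgroup.eq_bot_iff_forall] at h ⊢
    intro x hx
    have hxI : (x : G3) ∈ (g • R.ab w).inertia G3 := hx
    have h1 : g⁻¹ * x * g⁻¹⁻¹ ∈ (R.ab w).inertia G3 := by
      intro z
      change (g⁻¹ * x * g⁻¹⁻¹) • z - z ∈ R.ab w
      have h4 := hxI (g • z)
      change (x : G3) • g • z - g • z ∈ g • R.ab w at h4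
      rw [Ideal.mem_pointwise_smul_iff_inv_smul_mem] at h4
      have e : g⁻¹ • ((x : G3) • g • z - g • z) = (g⁻¹ * x * g⁻¹⁻¹) • z - z := by
        rw [smul_sub, inv_smul_smul, inv_inv, mul_smul, mul_smul]
      rwa [e] at h4
    have h2 : g⁻¹ * x * g⁻¹⁻¹ ∈ Q8 := (inferInstance : Q8.Normal).conj_mem _ x.2 g⁻¹
    have h3 := congrArg Subtype.val (h ⟨_, h2⟩ h1)
    change g⁻¹ * x * g⁻¹⁻¹ = 1 at h3
    rw [mul_inv_eq_one, mul_eq_left] at h3
    exact Subtype.ext h3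
  have hQ : g * (R.fr w : G3) * g⁻¹ ∈ Q8 := (inferInstance : Q8.Normal).conj_mem _ (R.fr w).2 g
  have hcard : Nat.card (𝓞 R.L ⧸ (g • R.ab w).under (𝓞 R.L)) =
      Nat.card (𝓞 R.L ⧸ (R.ab w).under (𝓞 R.L)) := by
    rw [hu, R.under_ab w]
    have h1 := qv_pl R.cub w
    rw [qv, qv, Ideal.absNorm_apply, Ideal.absNorm_apply, Submodule.cardQuot_apply,
      Submodule.cardQuot_apply] at h1
    exact_mod_cast h1
  have hF : IsArithFrobAt (𝓞 R.L) (⟨_, hQ⟩ : Q8) (g • R.ab w) := by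
    intro z
    rw [hcard]
    have h1 := R.fr_spec w (g⁻¹ • z)
    change (R.fr w : G3) • g⁻¹ • z - (g⁻¹ • z) ^ _ ∈ R.ab w at h1
    change (g * (R.fr w : G3) * g⁻¹) • z - z ^ _ ∈ g • R.ab w
    rw [Ideal.mem_pointwise_smul_iff_inv_smul_mem]
    have e : g⁻¹ • ((g * (R.fr w : G3) * g⁻¹) • z -
        z ^ Nat.card (𝓞 R.L ⧸ (R.ab w).under (𝓞 R.L))) = (R.fr w : G3) • g⁻¹ • z -
        (g⁻¹ • z) ^ Nat.card (𝓞 R.L ⧸ (R.ab w).under (𝓞 R.L)) := by
      rw [smul_sub, smul_pow', ← mul_smul, ← mul_smul]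
      congr 2
      group
    rw [e]
    exact h1
  rw [R.lam_eq (pl R.cub w) (g • R.ab w) hu hI hF]
  exact trQ_conj _ _

/-- **The eigenvalue at a ramified place is `±2`.** -/
theorem lam_ram {v : Pl R.K} {w : Pl R.L} (h : Ram R.cub v w) : R.lam w = 2 ∨ R.lam w = -2 := by
  obtain ⟨g, hg, hgS, hgQ⟩ := R.exists_inertia_of_ram h
  exact R.lam_of_ram hg hgS hgQ

end Fermat.Agent.LT.K.Octa
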