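import Fermat.Agent.LT.Top.IfaceL
import Fermat.Agent.LT.Top.Tower
import Fermat.Agent.LT.Top.KillOcta
import Fermat.Agent.LT.Top.LevM

/-!
# LT, top level: `Desc R` from `DescGeo`, `PiL R`, `UniqL R`
-/

set_option autoImplicit false
set_option linter.unusedSectionVars false

open NumberField IsDedekindDomain Matrix Module Pointwise
open Fermat.LT Fermat.Agent.LT.B Fermat.Agent.LT.D Fermat.Agent.LT.K

namespace Fermat.Agent.LT.Top

variable (R : Octa)

/-! ### the places of `L` which ramify in `N` -/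

theorem three_mem_of_ramN {w : Pl R.L} (h : (R.ab w).inertia Q8 ≠ ⊥) :
    (3 : 𝓞 R.L) ∈ w.asIdeal := by
  by_contra h3
  apply h
  refine R.inertia_Q8 (R.ab_ne_bot w) fun h3' => h3 ?_
  rw [← R.mem_w_iff, map_ofNat]
  exact h3'

theorem finite_three (F : Type) [Field F] [NumberField F] :
    {w : Pl F | (3 : 𝓞 F) ∈ w.asIdeal}.Finite := by
  refine (av_finite (F := F) (x := 3) (by norm_num)).subset ?_
  intro w hw
  rw [Set.mem_ofPred_eq] at hw ⊢
  have h1 := (E.av_int_lt_one_iff w (3 : 𝓞 F)).mpr hw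
  rw [map_ofNat] at h1
  exact h1.ne

theorem ramN_finite : {w : Pl R.L | (R.ab w).inertia Q8 ≠ ⊥}.Finite :=
  (finite_three R.L).subset fun _ hw => three_mem_of_ramN R hw

/-- the places of `L` which ramify in `N` -/
noncomputable def SN : Finset (Pl R.L) := (ramN_finite R).toFinset

theorem mem_SN {w : Pl R.L} : w ∈ SN R ↔ (R.ab w).inertia Q8 ≠ ⊥ := by
  rw [SN, Set.Finite.mem_toFinset]; rfl

theorem SN_pl {w : Pl R.L} : pl R.cub w ∈ SN R ↔ w ∈ SN R := by
  rw [mem_SN, mem_SN, not_iff_not]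
  refine ⟨fun h => ?_, R.inertia_Q8_pl⟩
  have h1 := R.inertia_Q8_pl (R.inertia_Q8_pl h)
  rwa [TwDatum.pl_cube] at h1

theorem not_mem_SN_of_fix {w : Pl R.L} (h : pl R.cub w = w) : w ∉ SN R := by
  rw [mem_SN, not_not]
  exact R.inertia_Q8_of_fix h

theorem levL_pl (M : ℕ) (w : Pl R.L) (g : G2 R.L) :
    R.cub.S g ∈ (LevelT (SN R) M).H (pl R.cub w) ↔ g ∈ (LevelT (SN R) M).H w := by
  by_cases h : w ∈ SN R
  · rw [LevelT_H_of_mem h, LevelT_H_of_mem ((SN_pl R).mpr h), HT_pl]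
  · rw [LevelT_H_of_notMem h, LevelT_H_of_notMem (mt (SN_pl R).mp h), stdH_pl]

/-- the comparison datum of the octahedral tower -/
noncomputable def geo (M : ℕ) : GeoDatum R.cub :=
  GeoDatum.mk3 R.cub R.finrank_K R.phi R.phi_K (LevelT (SN R) M) (levL_pl R M)
    (fun _ h => LevelT_H_of_notMem (not_mem_SN_of_fix R h))

theorem geo_DL_toLevel (M : ℕ) : (geo R M).DL.toLevel = LevelT (SN R) M := rfl

theorem isLev_geo (M : ℕ) : IsLev R M (geo R M).DL.toDatum where
  ram w h := by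
    have hw := (mem_SN R).mpr h
    exact ⟨LevelT_H_of_mem hw, LevelT_n_of_mem hw⟩
  unr w h := LevelT_n_of_notMem (by rw [mem_SN, not_not]; exact h)

open Classical in
theorem geo_n (M : ℕ) (v : Pl R.K) : (geo R M).U.n v =
    if Ram R.cub v ((geo R M).up v) then max (nr3 v) 1
    else if Split R.cub v ((geo R M).up v) then (geo R M).DL.n ((geo R M).up v) else 0 := rfl

theorem notMem_SN_of_n {M : ℕ} {w : Pl R.L} (h : (geo R M).DL.n w = 0) : w ∉ SN R := by
  intro hw
  have h1 : (geo R M).DL.n w = max M 1 := LevelT_n_of_mem hw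
  omega

theorem unr_of_n {M : ℕ} {w : Pl R.L} (h : (geo R M).DL.n w = 0) :
    (R.ab w).inertia Q8 = ⊥ := by
  have := notMem_SN_of_n R h
  rwa [mem_SN, not_not] at this

theorem geo_n_pl (M : ℕ) (w : Pl R.L) :
    (geo R M).DL.n (pl R.cub w) = (geo R M).DL.n w := by
  change (LevelT (SN R) M).n (pl R.cub w) = (LevelT (SN R) M).n w
  by_cases h : w ∈ SN R
  · rw [LevelT_n_of_mem h, LevelT_n_of_mem ((SN_pl R).mpr h)]
  · rw [LevelT_n_of_notMem h, LevelT_n_of_notMem (mt (SN_pl R).mp h)]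

theorem descHyp {M : ℕ} {φ : X (geo R M).DL.toDatum → ℂ}
    (hU : UniqL R) (hφ : EForm (geo R M).DL.toDatum (fun w => (R.lam w : ℝ)) φ)
    (hs : SType (geo R M).DL.toDatum M φ) :
    DescHyp (geo R M) M (fun w => (R.lam w : ℝ)) φ where
  zeta := ⟨R.zeta, R.zeta_spec⟩
  lev w := by
    by_cases h : w ∈ SN R
    · right
      exact ⟨LevelT_H_of_mem h, fun h' => not_mem_SN_of_fix R h' h⟩
    · left
      exact LevelT_n_of_notMem h
  n_pl := geo_n_pl R M
  n_split v h := by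
    rw [geo_n, if_neg (fun h' => h.not_ram h'), if_pos h]
  n_inert v h := by
    rw [geo_n, if_neg (fun h' => h.not_ram h'), if_neg (fun h' => h'.not_inert h)]
  n_ram v h := by
    rw [geo_n, if_pos h]
    omega
  form := hφ
  styp := hs
  uniq lam' φ' h1 h2 h3 := hU M R.cub _ (isLev_geo R M) φ hφ hs lam' φ' h1 h2 h3
  lam_pl w h := by
    have h1 := R.lam_pl (unr_of_n R h)
    exact_mod_cast h1
  lam_ram v h := by
    have h1 := R.lam_ram h
    intro h2
    have h3 : R.lam ((geo R M).up v) = 0 := by exact_mod_cast h2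
    omega
  kill := killL_octa R R.cub _
  big B := big_octa R (geo R M) (fun w h => by
      have h1 : (geo R M).DL.n w = max M 1 := LevelT_n_of_mem ((mem_SN R).mpr h)
      omega)
    (fun w h => R.lam_pl (unr_of_n R h)) B

/-! ### compatibility of the eigenvalues -/

theorem geo_n_eq_zero_split {M : ℕ} {v : Pl R.K} {w : Pl R.L} (hn : (geo R M).U.n v = 0)
    (hw : Above v w) (hq : qv w = qv v) : Split R.cub v ((geo R M).up v) := by
  have hup : Above v ((geo R M).up v) := by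
    have := (geo R M).above ((geo R M).up v)
    rwa [(geo R M).down_up] at this
  rcases (geo R M).typ v with h | h | h
  · exact h
  · exfalso
    have h1 : qv w = qv ((geo R M).up v) := by
      rcases Fermat.LT.above_cases R.cub hup hw with h2 | h2 | h2 <;> rw [h2]
      · rw [qv_pl]
      · rw [qv_pl, qv_pl]
    have h2 := h.q_eq
    rw [← h1, hq] at h2
    have h3 := one_lt_qv v
    nlinarith [mul_pos (sub_pos.mpr h3) (qv_pos v), pow_pos (qv_pos v) 2]
  · exfalso
    rw [geo_n, if_pos h] at hn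
    omega

theorem compat_of {M : ℕ} {lamK : Pl R.K → ℝ}
    (h : ∀ v, Split R.cub v ((geo R M).up v) → (geo R M).DL.n ((geo R M).up v) = 0 →
      lamK v = R.lam ((geo R M).up v)) : Compat R (geo R M).DK lamK := by
  intro v w hn hw hq
  have hn' : (geo R M).U.n v = 0 := hn
  have hs := geo_n_eq_zero_split R hn' hw hq
  have hnL : (geo R M).DL.n ((geo R M).up v) = 0 := by
    rw [geo_n, if_neg (fun h' => hs.not_ram h'), if_pos hs] at hn'
    exact hn'
  rw [h v hs hnL]
  have hup : Above v ((geo R M).up v) := by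
    have := (geo R M).above ((geo R M).up v)
    rwa [(geo R M).down_up] at this
  have e1 := unr_of_n R hnL
  have e2 := R.inertia_Q8_pl e1
  have h1 : R.lam w = R.lam ((geo R M).up v) := by
    rcases Fermat.LT.above_cases R.cub hup hw with h2 | h2 | h2 <;> rw [h2]
    · exact R.lam_pl e1
    · rw [R.lam_pl e2, R.lam_pl e1]
  rw [h1]

/-! ### the integer level -/

theorem above_up (M : ℕ) (v : Pl R.K) : Above v ((geo R M).up v) := by
  have := (geo R M).above ((geo R M).up v)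
  rwa [(geo R M).down_up] at this

theorem three_mem_up_iff (M : ℕ) (v : Pl R.K) :
    (3 : 𝓞 R.L) ∈ ((geo R M).up v).asIdeal ↔ (3 : 𝓞 R.K) ∈ v.asIdeal := by
  have h := above_up R M v 3
  rw [map_ofNat] at h
  exact h.symm

theorem notMem_SN_of_notMem_three {w : Pl R.L} (h : (3 : 𝓞 R.L) ∉ w.asIdeal) : w ∉ SN R := by
  rw [mem_SN]
  exact fun h' => h (three_mem_of_ramN R h')

theorem notMem_SN_of_tame (ht : TameAtThree R.ρ) (w : Pl R.L) : w ∉ SN R := by
  rw [mem_SN, not_not]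
  by_cases h3 : (3 : 𝓞 R.N) ∈ R.ab w
  · have h1 := R.inertia_SLs_of_tame ht h3
    rw [Subgroup.eq_bot_iff_forall] at h1 ⊢
    intro x hx
    have h2 : (x : G3) = 1 := congrArg Subtype.val (h1 ⟨x, Q8_le_SLs x.2⟩ hx)
    exact Subtype.ext h2
  · exact R.inertia_Q8 (R.ab_ne_bot w) h3

theorem geo_n_zero_of {M : ℕ} {v : Pl R.K} (h1 : ¬ Ram R.cub v ((geo R M).up v))
    (h2 : (geo R M).up v ∉ SN R) : (geo R M).U.n v = 0 := by
  rw [geo_n, if_neg h1]
  split_ifs
  · exact LevelT_n_of_notMem h2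
  · rfl

theorem exists_lev (M : ℕ) : ∃ M' : ℕ, M' ≠ 0 ∧ (∀ q : ℕ, q.Prime → q ≠ 3 → ¬ q ^ 2 ∣ M') ∧
    (TameAtThree R.ρ → ¬ 3 ∣ M') ∧ LevelDvd (geo R M).DK M' := by
  have hn3 : ∃ n3 : ℕ, ∀ v : Pl R.K, (geo R M).U.n v ≤ n3 := by
    obtain ⟨n3, h⟩ := ((geo R M).U.n_fin.image (geo R M).U.n).bddAbove
    refine ⟨n3, fun v => ?_⟩
    by_cases hv : (geo R M).U.n v = 0
    · rw [hv]; exact Nat.zero_le _
    · exact h ⟨v, hv, rfl⟩
  obtain ⟨n3, hn3⟩ := hn3
  refine exists_levM (geo R M).DK (TameAtThree R.ρ) n3 (tameRam R.cub) (tameRam_finite R.cub)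
    (fun v hv => hv.1) ?_ ?_ ?_ ?_
  · intro v hv h3
    refine geo_n_zero_of R (fun h => hv ⟨h3, _, h⟩) (notMem_SN_of_notMem_three R ?_)
    rwa [three_mem_up_iff]
  · intro v hv
    obtain ⟨h3, w, hw⟩ := hv
    have hup : Ram R.cub v ((geo R M).up v) := by
      rcases (geo R M).typ v with h | h | h
      · exact absurd hw h.not_ram
      · exact absurd hw h.not_ram
      · exact h
    have h1 : (geo R M).U.H v = scalCong v 1 :=
      GeoDatum.mk3_tame R.cub R.finrank_K R.phi R.phi_K (LevelT (SN R) M) (levL_pl R M)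
        (fun _ h => LevelT_H_of_notMem (not_mem_SN_of_fix R h)) hup
        (av_three_eq_one_iff.mpr h3)
    change congGL v 1 ≤ (geo R M).U.H v
    rw [h1]
    exact congGL_le_scalCong v 1
  · intro ht v h3
    refine geo_n_zero_of R (fun h => ?_) (notMem_SN_of_tame R ht _)
    refine R.three_notMem_of_ram_of_tame ht h ?_
    have h4 := (three_mem_up_iff R M v).mpr h3
    rwa [← R.mem_w_iff, map_ofNat] at h4
  · intro _ v _
    refine le_trans ?_ ((geo R M).U.cong_le v)
    intro g hg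
    refine ⟨hg.1, hg.2.trans ?_⟩
    exact pow_le_pow_of_le_one (inv_nonneg.mpr (qv_pos v).le)
      (inv_le_one_of_one_le₀ (one_lt_qv v).le) (hn3 v)

/-- **Wiring**: the form on `K` from the pieces G, I, H. -/
theorem desc_of (hG : DescGeo) (hP : PiL R) (hU : UniqL R) : Desc R := by
  obtain ⟨M, hM⟩ := hP
  obtain ⟨φ, hφ, hs⟩ := hM _ (isLev_geo R M)
  obtain ⟨lamK, Φ, hΦ, hsplit⟩ := hG R.K R.L R.cub (geo R M) M _ φ (descHyp R hU hφ hs)
  obtain ⟨M', hM', h1, h2, h3⟩ := exists_lev R M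
  exact ⟨(geo R M).DK, M', lamK, Φ, hM', h1, h2, h3, hΦ, compat_of R hsplit⟩

/-- **LTCore from the pieces.** -/
theorem ltCore_of_pieces (hG : DescGeo) (hP : ∀ R : Octa, PiL R) (hU : ∀ R : Octa, UniqL R)
    (hJ : ∀ R : Octa, ThetaJ R) : LTCore :=
  ltCore_of (fun R => desc_of R hG (hP R) (hU R)) hJ

end Fermat.Agent.LT.Top
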