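import Fermat.Agent.LT.Top.STypeOf
import Fermat.Agent.LT.I.PiLAbs
import Fermat.Agent.LT.I8.MkSetup

/-!
# LT: `PiL` from the theta side
-/

set_option autoImplicit false

open NumberField IsDedekindDomain Matrix
open Fermat.LT Fermat.Agent.LT.B Fermat.Agent.LT.D Fermat.Agent.LT.K Fermat.Agent.LT.CTree
open Fermat.Agent.LT.I Fermat.Agent.LT.CArch

namespace Fermat.Agent.LT.Top

/-- the theta side (helper85) -/
def NewFnExists (F M : Type) [Field F] [NumberField F] [Field M] [NumberField M] [Algebra F M] :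
    Prop :=
  ∀ Z : Setup F M, 1 ≤ Z.e0 → Z.e0 ≤ Z.N →
    (∀ P, Z.Bad P → (Z.e0 : ℤ) + dF M P ≤ Z.N) → ∀ U : Level F, (∀ w ∉ Z.S, U.n w = 0) →
      ∃ f, NewFn Z.A U Z.S (2 * Z.N) Z.lamZ f

/-- **`PiL` from the theta side.** -/
theorem piL_of (R : Octa) (h : NewFnExists R.L R.M) : PiL R := by
  classical
  obtain ⟨S, e0, N, hS, he0, heN, hN, hZ⟩ := exists_setup_unif R
  refine ⟨2 * N, fun D hD => ?_⟩
  obtain ⟨Z, hA, hZS, h1, h2, -, -, hlam⟩ := hZ D.toArch
  subst hZS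
  subst h1
  subst h2
  have hU : ∀ w ∉ Z.S, D.n w = 0 := fun w hw => hD.unr w (by
    by_contra h
    exact hw ((hS w).2 h))
  have hH : ∀ w ∈ Z.S, D.H w = HT w (2 * Z.N) := fun w hw => (hD.ram w ((hS w).1 hw)).1
  have hgood : ∀ w, D.n w = 0 → w ∉ Z.S := by
    intro w hw hwS
    have h3 := (hD.ram w ((hS w).1 hwS)).2
    omega
  obtain ⟨f, hf⟩ : ∃ f : XI D.toArch → Y D.toLevel → ℂ,
      NewFn D.toArch D.toLevel Z.S (2 * Z.N) Z.lamZ f := by
    rw [← hA]
    exact h Z he0 heN hN D.toLevel hU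
  obtain ⟨φ, hcusp, hne, hT, hR, hsum⟩ := PiLAbs.exists_form' hf hH le_rfl
  refine ⟨φ, ⟨hcusp, ⟨fun w hw x => ?_, fun i g hg x => hR i g hg x⟩, hne⟩, ?_⟩
  · have hwS := hgood w hw
    rw [hT w hwS x, hlam w hwS]
    norm_cast
  · refine sType_of (D := D) (M := 2 * Z.N) ?_ ?_
    · intro w hw
      exact hH w (by
        by_contra h
        exact hw (hU w h))
    · intro w hw x g
      exact hsum w (by
        by_contra h
        exact hw (hU w h)) x g

end Fermat.Agent.LT.Top
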