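import Fermat.Agent.LT.Top.IfaceL
import Fermat.Agent.LT.Geo.EThreeB

/-!
# LT: `SType` from the vanishing of the sums over `un (rep w c)`
-/

set_option autoImplicit false

open NumberField IsDedekindDomain Matrix
open Fermat.LT Fermat.Agent.LT.B Fermat.Agent.LT.D Fermat.Agent.LT.K Fermat.Agent.LT.CTree

namespace Fermat.Agent.LT.Top

variable {F : Type} [Field F] [NumberField F]

theorem ew_fix_of {w : Pl F} {M : ℕ} {H : Subgroup (G2 F)} (hH : H = HT w M)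
    (ψ : G2 F ⧸ H → ℂ)
    (h : ∀ g : G2 F, ∑ᶠ c : 𝓞 F ⧸ w.asIdeal, ψ ((g * un (rep w c) : G2 F) : G2 F ⧸ H) = 0)
    (a : G2 F ⧸ H) : ∑ᶠ b, kw H (ew w M) a b * ψ b = ψ a := by
  subst hH
  exact (ew_fix_iff w M ψ).mpr h a

/-- **`SType` from the sum condition.** -/
theorem sType_of {D : Datum F} {M : ℕ} {φ : X D → ℂ} (hlev : ∀ w, D.n w ≠ 0 → D.H w = HT w M)
    (hsum : ∀ w, D.n w ≠ 0 → ∀ (x : X D) (g : G2 F), ∑ᶠ c : 𝓞 F ⧸ w.asIdeal,
      φ (x.1, upd x.2 w ((g * un (rep w c) : G2 F) : Yl D.toLevel w)) = 0) :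
    SType D M φ := by
  intro w hw
  funext x
  have h := ew_fix_of (hlev w hw) (fun z : Yl D.toLevel w => φ (x.1, upd x.2 w z))
    (fun g => hsum w hw x g) (x.2 w)
  unfold opX
  refine h.trans ?_
  rw [upd_self]

/-- the converse -/
theorem SType.sum {D : Datum F} {M : ℕ} {φ : X D → ℂ} (hlev : ∀ w, D.n w ≠ 0 → D.H w = HT w M)
    (h : SType D M φ) (w : Pl F) (hw : D.n w ≠ 0) (x : X D) (g : G2 F) :
    ∑ᶠ c : 𝓞 F ⧸ w.asIdeal,
      φ (x.1, upd x.2 w ((g * un (rep w c) : G2 F) : Yl D.toLevel w)) = 0 := by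
  have key : ∀ (H : Subgroup (G2 F)) (hH : H = HT w M) (ψ : G2 F ⧸ H → ℂ),
      (∀ a, ∑ᶠ b, kw H (ew w M) a b * ψ b = ψ a) →
      ∑ᶠ c : 𝓞 F ⧸ w.asIdeal, ψ ((g * un (rep w c) : G2 F) : G2 F ⧸ H) = 0 := by
    intro H hH ψ hψ
    subst hH
    exact (ew_fix_iff w M ψ).mp hψ g
  refine key (D.H w) (hlev w hw) (fun z : Yl D.toLevel w => φ (x.1, upd x.2 w z)) fun a => ?_
  have h1 := congrFun (h w hw) (x.1, upd x.2 w a)
  unfold opX at h1
  rw [upd_same] at h1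
  rw [← h1]
  refine finsum_congr fun z => ?_
  rw [Fermat.Agent.LT.B.upd_upd]

end Fermat.Agent.LT.Top
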